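import Fermat.Agent.H13.Cft.Local
import Fermat.Agent.H19.Cft.HomologyApi
import Fermat.Agent.H42.CftPermInduction
import Fermat.Agent.H47.Cft.LocalExt
import Fermat.Agent.H47.Cft.LocalRetr

/-!
# P-CFT, row L-ONTO : `LocalOntoOfBaseStatement` (helper95)

Local dévissage output ⟹ `LocalOnto`: `localOntoOfBase : LocalOntoOfBaseStatement`
(unconditional; uses `H42.Cft.permInduction`, `H47.Cft.lExtClosed`, `H47.Cft.lRetractClosed`,
`H19.homologyApi`).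

* `exists_dual_cocycle`, `exists_cocycle_of_surjective`: the comparison
  `H¹(dualCx2 K) → Dual (H¹ K)` in cocycle form (over a field);
* `twistResHom`, `twistResInv`: the identity as an isomorphism
  `Res (M^*(χ)) ≅ (Res M)^*(χ ∘ loc)`;
* `localAt_apply`: `T.localAt v c = τ (0, c at v)`.
-/

set_option autoImplicit false

universe u

open CategoryTheory groupCohomology

namespace Fermat.Agent.H95.Cft

open Fermat.Agent.H13.Cft Fermat.Agent.H19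

noncomputable section

section Comparison

variable {k : Type u} [Field k] (K : CochainComplex (ModuleCat.{u} k) ℕ)

/-- Extension of a linear form on the `1`-cocycles vanishing on coboundaries to a cocycle of the
dual complex. -/
theorem exists_dual_cocycle (ψ : LinearMap.ker (K.d 1 2).hom →ₗ[k] k)
    (hψ : ∀ (z : K.X 0) (hz : (K.d 0 1).hom z ∈ LinearMap.ker (K.d 1 2).hom),
      ψ ⟨(K.d 0 1).hom z, hz⟩ = 0) :
    ∃ ξ : Module.Dual k (K.X 1),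
      (∀ y : LinearMap.ker (K.d 1 2).hom, ξ y.1 = ψ y) ∧ ∀ z : K.X 0, ξ ((K.d 0 1).hom z) = 0 := by
  obtain ⟨ξ, hξ⟩ := LinearMap.exists_extend ψ
  refine ⟨ξ, fun y => ?_, fun z => ?_⟩
  · exact LinearMap.congr_fun hξ y
  · have hz : (K.d 0 1).hom z ∈ LinearMap.ker (K.d 1 2).hom :=
      LinearMap.mem_ker.2 (hapi_d_d K 0 z)
    have := LinearMap.congr_fun hξ ⟨_, hz⟩
    rw [hψ z hz] at this
    exact this

theorem dualCx2_d_one (ξ : Module.Dual k (K.X 1)) :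
    ((dualCx2 K).d 1 2).hom ξ = ξ ∘ₗ (K.d 0 1).hom := by
  simp [dualCx2]
  rfl

theorem dualCx2_d_zero (η : Module.Dual k (K.X 2)) :
    ((dualCx2 K).d 0 1).hom η = η ∘ₗ (K.d 1 2).hom := by
  simp [dualCx2]
  rfl

/-- If `H¹(f)` is surjective for `f : L ⟶ dualCx2 K`, every cocycle `ξ` of the dual complex
is represented, on the cocycles of `K`, by `f a` for some cocycle `a` of `L`. -/
theorem exists_cocycle_of_surjective {L : CochainComplex (ModuleCat.{u} k) ℕ}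
    (f : L ⟶ dualCx2 K)
    (hf : Function.Surjective (HomologicalComplex.homologyMap f 1).hom)
    (ξ : Module.Dual k (K.X 1)) (hξ : ∀ z : K.X 0, ξ ((K.d 0 1).hom z) = 0) :
    ∃ a : L.X 1, (L.d 1 2).hom a = 0 ∧
      ∀ y : K.X 1, (K.d 1 2).hom y = 0 →
        (show Module.Dual k (K.X 1) from (f.f 1).hom a) y = ξ y := by
  have hξ' : ((dualCx2 K).d 1 2).hom ξ = 0 := by
    rw [dualCx2_d_one]
    exact LinearMap.ext hξ
  obtain ⟨z, hz⟩ := hf (hMk (dualCx2 K) 1 ξ hξ')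
  obtain ⟨a, ha, rfl⟩ := hapi_hMk_surjective L 1 z
  rw [hapi_homologyMap_hMk' L 1 (dualCx2 K) f a ha] at hz
  obtain ⟨η, hη⟩ := (hapi_hMk_succ_eq_iff (dualCx2 K) 0 _ _ _ hξ').1 hz
  refine ⟨a, ha, fun y hy => ?_⟩
  rw [dualCx2_d_zero] at hη
  have h1 := LinearMap.congr_fun hη y
  rw [LinearMap.comp_apply, hy, map_zero] at h1
  exact sub_eq_zero.1 h1.symm

end Comparison

section Twist

variable {k Γ G : Type u} [CommRing k] [Group Γ] [Group G] (loc : Γ →* G) (χ : G →* kˣ)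
  (M : Rep.{u} k G)

theorem dualTwist_res_ρ (g : Γ) (f : Module.Dual k M) :
    (Rep.res loc (M.dualTwist χ)).ρ g f = ((Rep.res loc M).dualTwist (χ.comp loc)).ρ g f := by
  rw [Rep.coe_res_obj_ρ', Rep.dualTwist_ρ_apply, Rep.dualTwist_ρ_apply]
  simp [map_inv]

/-- The identity, as a morphism `Res (M^*(χ)) ⟶ (Res M)^*(χ ∘ loc)`. -/
def twistResHom : Rep.res loc (M.dualTwist χ) ⟶ (Rep.res loc M).dualTwist (χ.comp loc) :=
  Rep.ofHom ⟨LinearMap.id, fun g => by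
    refine LinearMap.ext fun f => ?_
    exact dualTwist_res_ρ loc χ M g f⟩

/-- The identity, as a morphism `(Res M)^*(χ ∘ loc) ⟶ Res (M^*(χ))`. -/
def twistResInv : (Rep.res loc M).dualTwist (χ.comp loc) ⟶ Rep.res loc (M.dualTwist χ) :=
  Rep.ofHom ⟨LinearMap.id, fun g => by
    refine LinearMap.ext fun f => ?_
    exact (dualTwist_res_ρ loc χ M g f).symm⟩

theorem twistResHom_apply (f : Module.Dual k M) : (twistResHom loc χ M).hom f = f := rfl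

theorem twistResInv_apply (f : Module.Dual k M) : (twistResInv loc χ M).hom f = f := rfl

end Twist

section Main

/-- The local trace induced by a global trace, evaluated. -/
theorem localAt_apply {k G : Type u} [CommRing k] [Group G] {𝔄 : ArithDatum k G} (T : Trace 𝔄)
    (v : 𝔄.ι) [DecidableEq 𝔄.ι]
    (c : lvlCochains (𝔄.lvlv v) (Rep.res (𝔄.loc v) (muRep 𝔄.χ)) 2) :
    T.localAt v c = T.τ (0, Pi.single v c) := by
  unfold Trace.localAt
  simp only [LinearMap.comp_apply, LinearMap.inr_apply, LinearMap.single_apply]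
  congr!

/-- **[L-ONTO]** `Fermat.Agent.H13.Cft.LocalOntoOfBaseStatement`. -/
theorem localOntoOfBase : LocalOntoOfBaseStatement := by
  intro p _ G _ 𝔄 T hloc M hM v ψ
  obtain ⟨Tv, hc, hagree, hbase⟩ := hloc v
  -- the restricted module is good, the restricted character is a level character
  have hNgood : IsLGood (𝔄.lvlv v) (Rep.res (𝔄.loc v) M) := by
    obtain ⟨hfin, N₀, hN₀, htriv⟩ := hM
    obtain ⟨N', hN', hle⟩ := 𝔄.compat v N₀ hN₀
    exact ⟨hfin, N', hN', fun s hs => htriv _ (hle hs)⟩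
  have hχlevel : ∃ N' ∈ (𝔄.lvlv v).sets, ∀ s ∈ N', (𝔄.χ.comp (𝔄.loc v)) s = 1 := by
    obtain ⟨N₀, hN₀, hχ⟩ := 𝔄.χ_level
    obtain ⟨N', hN', hle⟩ := 𝔄.compat v N₀ hN₀
    exact ⟨N', hN', fun s hs => hχ _ (hle hs)⟩
  have hdual := localMain Fermat.Agent.H42.Cft.permInduction Fermat.Agent.H47.Cft.lExtClosed
    Fermat.Agent.H47.Cft.lRetractClosed (𝔄.lvlv v) (𝔄.χ.comp (𝔄.loc v)) hχlevel Tv hc hbase
    (Rep.res (𝔄.loc v) M) hNgood
  have hsurj : Function.Surjective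
      (HomologicalComplex.homologyMap (lthetaHom Tv (Rep.res (𝔄.loc v) M)
        (hc (Rep.res (𝔄.loc v) M))) 1).hom := by
    have := hdual.2.1
    exact (ModuleCat.epi_iff_surjective _).1 inferInstance
  -- the two complexes of dual coefficients and the comparison maps
  let conv : lvlComplex (𝔄.lvlv v) ((Rep.res (𝔄.loc v) M).dualTwist (𝔄.χ.comp (𝔄.loc v))) ⟶
      lvlComplex (𝔄.lvlv v) (Rep.res (𝔄.loc v) (M.dualTwist 𝔄.χ)) :=
    lvlMap (𝔄.lvlv v) (twistResInv (𝔄.loc v) 𝔄.χ M)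
  let conv' : lvlComplex (𝔄.lvlv v) (Rep.res (𝔄.loc v) (M.dualTwist 𝔄.χ)) ⟶
      lvlComplex (𝔄.lvlv v) ((Rep.res (𝔄.loc v) M).dualTwist (𝔄.χ.comp (𝔄.loc v))) :=
    lvlMap (𝔄.lvlv v) (twistResHom (𝔄.loc v) 𝔄.χ M)
  let K₂ := lvlComplex (𝔄.lvlv v) ((Rep.res (𝔄.loc v) M).dualTwist (𝔄.χ.comp (𝔄.loc v)))
  let ψ₂ : LinearMap.ker (K₂.d 1 2).hom →ₗ[ZMod p] ZMod p :=
    ψ ∘ₗ (HomologicalComplex.homologyMap conv 1).hom ∘ₗ cocyclesToH K₂ 1
  have hψ₂ : ∀ (z : K₂.X 0) (hz : (K₂.d 0 1).hom z ∈ LinearMap.ker (K₂.d 1 2).hom),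
      ψ₂ ⟨(K₂.d 0 1).hom z, hz⟩ = 0 := by
    intro z hz
    have h0 : cocyclesToH K₂ 1 ⟨(K₂.d 0 1).hom z, hz⟩ = 0 :=
      (cocyclesToH_succ_eq_zero_iff K₂ 0 _).2 ⟨z, rfl⟩
    show ψ ((HomologicalComplex.homologyMap conv 1).hom (cocyclesToH K₂ 1 _)) = 0
    rw [h0, map_zero, map_zero]
  obtain ⟨ξ, hξ1, hξ2⟩ := exists_dual_cocycle K₂ ψ₂ hψ₂
  obtain ⟨a, ha, haξ⟩ := exists_cocycle_of_surjective K₂
    (lthetaHom Tv (Rep.res (𝔄.loc v) M) (hc (Rep.res (𝔄.loc v) M))) hsurj ξ hξ2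
  have ha' : lvlD (𝔄.lvlv v) (Rep.res (𝔄.loc v) M) 1 a = 0 :=
    (lvlComplex_d_hom_apply (𝔄.lvlv v) (Rep.res (𝔄.loc v) M) 1 a).symm.trans ha
  refine ⟨-a, by rw [map_neg, ha', neg_zero], fun y hy => ?_⟩
  -- transport `y` to the other complex
  have hy1 : ((lvlComplex (𝔄.lvlv v) (Rep.res (𝔄.loc v) (M.dualTwist 𝔄.χ))).d 1 2).hom y = 0 :=
    (lvlComplex_d_hom_apply _ _ 1 y).trans hy
  have hy2 : (K₂.d 1 2).hom ((conv'.f 1).hom y) = 0 := hapi_map_mem_ker _ 1 conv' y hy1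
  have e1 : ψ (lvlHMk (𝔄.lvlv v) (Rep.res (𝔄.loc v) (M.dualTwist 𝔄.χ)) 1 y hy)
      = ξ ((conv'.f 1).hom y) := by
    have h1 := hξ1 ⟨(conv'.f 1).hom y, LinearMap.mem_ker.2 hy2⟩
    rw [h1]
    show _ = ψ ((HomologicalComplex.homologyMap conv 1).hom (cocyclesToH K₂ 1 _))
    rw [cocyclesToH_mk K₂ 1 _ hy2, hapi_homologyMap_hMk' K₂ 1 _ conv _ hy2]
    congr 1
  have e2 : ξ ((conv'.f 1).hom y)
      = - Tv.t (cupLvl (𝔄.lvlv v) (evPairing (𝔄.χ.comp (𝔄.loc v)) (Rep.res (𝔄.loc v) M)) 1 1 a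
          ((conv'.f 1).hom y)) :=
    (haξ _ hy2).symm
  have hraw : (cupLvl (𝔄.lvlv v) (evPairing (𝔄.χ.comp (𝔄.loc v)) (Rep.res (𝔄.loc v) M)) 1 1 a
        ((conv'.f 1).hom y)).1
      = (cupLvl (𝔄.lvlv v) ((evPairing 𝔄.χ M).res (𝔄.loc v)) 1 1 a y).1 := by
    funext g
    rw [cupLvl_apply, cupLvl_apply]
    exact congrArg (fun f : Module.Dual (ZMod p) M => f (a.1 fun t => g (Fin.castAdd 1 t)))
      (dualTwist_res_ρ (𝔄.loc v) 𝔄.χ M _ _).symm
  have e3 : Tv.t (cupLvl (𝔄.lvlv v) (evPairing (𝔄.χ.comp (𝔄.loc v)) (Rep.res (𝔄.loc v) M)) 1 1 a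
        ((conv'.f 1).hom y))
      = T.localAt v (cupLvl (𝔄.lvlv v) ((evPairing 𝔄.χ M).res (𝔄.loc v)) 1 1 a y) := by
    have h := hagree (cupLvl (𝔄.lvlv v) ((evPairing 𝔄.χ M).res (𝔄.loc v)) 1 1 a y).1
      (by rw [← hraw]; exact Subtype.mem _)
      (Subtype.mem _)
    rw [← h]
    congr 1
    exact Subtype.ext hraw
  rw [e1, e2, e3, map_neg, LinearMap.neg_apply, ← localAt_apply, map_neg]

end Main

end

end Fermat.Agent.H95.Cft
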