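/-
P-CFT row 934 (helper95): SD-DSREL, the RELATIVE abstract dimension-shifting lemma
`DsEpiRelStatement`.

For a morphism `φ : S₁ ⟶ S₂` of short exact sequences of cochain complexes of `k`-modules and
submodules `A₁ ⊆ Hⁿ⁺¹(S₁.X₁)`, `A₂ ⊆ Hⁿ⁺¹(S₁.X₂)` with `Hⁿ⁺¹(S₁.f) A₁ ⊆ A₂`: if `Hⁿ(S₂.g) = 0`,
every class of `Hⁿ⁺¹(S₂.X₁)` is hit from `A₁` and `Hⁿ⁺¹(φ.τ₂)` is injective on `A₂`, then
`Hⁿ(φ.τ₃)` is epi.  Same diagram chase as helper4's `Fermat.Agent.H4.CFT.dsEpi`.
-/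
import Fermat.Agent.H13.Cft.ShiftRel

set_option autoImplicit false

universe u

open CategoryTheory CategoryTheory.Limits

namespace Fermat.Agent.H95.Cft

/-- Applying an equality of composites of `ModuleCat` morphisms to an element. -/
theorem dsRel_comp_apply {k : Type u} [CommRing k] {A B C : ModuleCat.{u} k}
    (f : A ⟶ B) (g : B ⟶ C) (h : A ⟶ C) (e : f ≫ g = h) (x : A) :
    g.hom (f.hom x) = h.hom x := by
  subst e
  rfl

/-- **[DS-REL]** Abstract dimension shifting, relative form. -/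
theorem dsEpiRel : Fermat.Agent.H13.Cft.DsEpiRelStatement.{u} := by
  intro k _ S₁ S₂ φ h₁ h₂ n A₁ A₂ hA hg hepi hmono
  rw [ModuleCat.epi_iff_surjective]
  -- the exactness statements, as `Function.Exact`
  have ex1 : Function.Exact (h₁.δ n (n + 1) rfl).hom
      (HomologicalComplex.homologyMap S₁.f (n + 1)).hom :=
    (ShortComplex.ShortExact.moduleCat_exact_iff_function_exact _).mp
      (h₁.homology_exact₁ n (n + 1) rfl)
  have ex3 : Function.Exact (HomologicalComplex.homologyMap S₂.g n).hom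
      (h₂.δ n (n + 1) rfl).hom :=
    (ShortComplex.ShortExact.moduleCat_exact_iff_function_exact _).mp
      (h₂.homology_exact₃ n (n + 1) rfl)
  have nat : h₁.δ n (n + 1) rfl ≫ HomologicalComplex.homologyMap φ.τ₁ (n + 1)
      = HomologicalComplex.homologyMap φ.τ₃ n ≫ h₂.δ n (n + 1) rfl :=
    HomologicalComplex.HomologySequence.δ_naturality φ h₁ h₂ n (n + 1) rfl
  have sq : HomologicalComplex.homologyMap S₁.f (n + 1)
        ≫ HomologicalComplex.homologyMap φ.τ₂ (n + 1)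
      = HomologicalComplex.homologyMap φ.τ₁ (n + 1)
        ≫ HomologicalComplex.homologyMap S₂.f (n + 1) := by
    rw [← HomologicalComplex.homologyMap_comp, ← HomologicalComplex.homologyMap_comp,
      φ.comm₁₂]
  intro b'
  -- `c' := δ₂ b'`, lifted through `Hⁿ⁺¹(φ.τ₁)` to an element of `A₁`
  obtain ⟨c, hcA, hc⟩ := hepi ((h₂.δ n (n + 1) rfl).hom b')
  -- the image of `c` in `Hⁿ⁺¹(S₁.X₂)` lies in `A₂` and is killed by `Hⁿ⁺¹(φ.τ₂)`
  have hc2 : (HomologicalComplex.homologyMap S₁.f (n + 1)).hom c = 0 := by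
    apply hmono _ (hA c hcA)
    have e1 := dsRel_comp_apply _ _ _ sq c
    have e2 := dsRel_comp_apply (HomologicalComplex.homologyMap φ.τ₁ (n + 1))
      (HomologicalComplex.homologyMap S₂.f (n + 1)) _ rfl c
    rw [e1, ← e2, hc]
    have e3 := dsRel_comp_apply _ _ _ (h₂.δ_comp n (n + 1) rfl) b'
    exact e3
  -- hence `c = δ₁ b`
  obtain ⟨b, hb⟩ := (ex1 c).mp hc2
  -- `τ₃ b - b'` is killed by `δ₂`
  have hdiff : (h₂.δ n (n + 1) rfl).hom
      ((HomologicalComplex.homologyMap φ.τ₃ n).hom b - b') = 0 := by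
    rw [map_sub, sub_eq_zero]
    have e1 := dsRel_comp_apply _ _ _ nat b
    have e2 := dsRel_comp_apply (HomologicalComplex.homologyMap φ.τ₃ n)
      (h₂.δ n (n + 1) rfl) _ rfl b
    rw [e2, ← e1, hb, hc]
  obtain ⟨y, hy⟩ := (ex3 _).mp hdiff
  refine ⟨b, ?_⟩
  have hy0 : (HomologicalComplex.homologyMap S₂.g n).hom y = 0 := by
    rw [hg]
    rfl
  rw [hy0] at hy
  exact (sub_eq_zero.mp hy.symm)

end Fermat.Agent.H95.Cft
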