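/-
P-CFT / BRAUER-S block, row 940 BS-5 (helper95), part 1: fields unramified outside `S`.

* `bs_le_QS` : a field unramified outside `S` lies in `ℚ_S`;
* `bs_isUnramifiedOutside_of_le` : a finite subfield of `ℚ_S` is unramified outside `S`;
* `bs_exists_stable_field` : a finite subset of `ℚ_S` lies in a finite field unramified outside
  `S` whose fixing subgroup is normal in `G_ℚ`.
-/
import Fermat.Agent.H76.Cft.BrauerSInterfaces
import Fermat.Agent.H88.Cft.KummerRootQS
import Fermat.Agent.H96.Cft.KummerDivisible
import Fermat.Agent.H48.Cft.KummerStep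
import Fermat.Agent.H87.Cft.ESPTorsion
import Fermat.Agent.H75.Inf2Finite

set_option autoImplicit false
set_option linter.style.haveILetI false
set_option linter.unusedSectionVars false

noncomputable section

namespace Fermat.Agent.H95.Cft

open Fermat.Agent.H54.Cft Fermat.Agent.H76.Cft
open Fermat.Agent.H48.N6K (zp dlog zp_dlog zp_injective zp_zero zp_add zp_sub d1 d1_mul galU_mul
  galU_zp pow_eq_one_of_primitive exists_root)

/-! ### Fields unramified outside `S` -/

section Fields

variable {S : Finset Nat.Primes}

/-- A field unramified outside `S` lies in `ℚ_S`. -/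
theorem bs_le_QS {F : IntermediateField ℚ Qbar} (hF : F.IsUnramifiedOutside S) : F ≤ QS S :=
  le_iSup (fun F : {F : IntermediateField ℚ Qbar // F.IsUnramifiedOutside S} => F.1) ⟨F, hF⟩

/-- A finite subfield of `ℚ_S` is unramified outside `S`. -/
theorem bs_isUnramifiedOutside_of_le {F : IntermediateField ℚ Qbar} [FiniteDimensional ℚ F]
    (hF : F ≤ QS S) : F.IsUnramifiedOutside S := by
  refine ⟨inferInstance, fun q hq A hA σ hσ => ?_⟩
  rw [IntermediateField.mem_fixingSubgroup_iff]
  intro x hx
  exact Fermat.Agent.H96.Cft.apply_eq_of_mem_QS hq hA hσ (hF hx)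

/-- A finite subset of `ℚ_S` lies in a finite `G_ℚ`-stable field unramified outside `S`. -/
theorem bs_exists_stable_field (T : Set Qbar) (hT : T.Finite) (hTQ : ∀ t ∈ T, t ∈ QS S) :
    ∃ F : IntermediateField ℚ Qbar, F.IsUnramifiedOutside S ∧ (∀ t ∈ T, t ∈ F) ∧
      F.fixingSubgroup.Normal := by
  haveI hgal := Fermat.Agent.H57.CFT.isGalois_qb
  haveI : Finite T := hT
  haveI : FiniteDimensional ℚ (IntermediateField.adjoin ℚ T) :=
    IntermediateField.finiteDimensional_adjoin (fun y _ => hgal.to_normal.isIntegral y)
  have h0 : IntermediateField.adjoin ℚ T ≤ QS S := by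
    rw [IntermediateField.adjoin_le_iff]
    exact fun t ht => hTQ t ht
  have hF0 : (IntermediateField.adjoin ℚ T).IsUnramifiedOutside S :=
    bs_isUnramifiedOutside_of_le h0
  set F := IntermediateField.normalClosure ℚ (IntermediateField.adjoin ℚ T) Qbar with hFdef
  haveI : FiniteDimensional ℚ F := normalClosure.is_finiteDimensional ℚ _ _
  haveI : Normal ℚ Qbar := hgal.to_normal
  haveI : Normal ℚ F := normalClosure.normal ℚ _ _
  haveI : IsGalois ℚ F := ⟨⟩
  have hle : F ≤ QS S := by
    have h1 := IntermediateField.normalClosure_def'' (IntermediateField.adjoin ℚ T)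
    refine le_trans (le_of_eq h1) ?_
    exact iSup_le fun g => bs_le_QS (Fermat.Agent.H96.Cft.isUnramifiedOutside_map hF0 g)
  refine ⟨F, bs_isUnramifiedOutside_of_le hle, fun t ht => ?_,
    (InfiniteGalois.normal_iff_isGalois _).mpr inferInstance⟩
  exact IntermediateField.le_normalClosure _ (IntermediateField.subset_adjoin ℚ T ht)

end Fields

end Fermat.Agent.H95.Cft
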