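/-
P-CFT / BRAUER-S block, row 940 BS-5 (helper95), part 2: cochain algebra.

* `bs_floor` : the floor identity behind the standard cocycle of a cyclic algebra;
* `bs_std_cocycle` : `stdCochain χ u` is a multiplicative `2`-cocycle (for `u` fixed by `G_K`);
* `bs_d1_cocycle` : coboundaries of `1`-cochains are `2`-cocycles;
* `bs_d1_corr` : the coboundary of `g ↦ (u ^ (χ g · t))⁻¹`;
* `bs_d1_lvl` : level invariance of the coboundary of a level `1`-cochain with fixed values;
* `bs_isCocycle₂` : a `ℤ/p`-valued cochain `x` with `ζ ^ x` a multiplicative `2`-cocycle is a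
  `2`-cocycle.
-/
import Fermat.Agent.H95.Cft.BrauerSFields

set_option autoImplicit false
set_option linter.style.haveILetI false
set_option linter.unusedSectionVars false

noncomputable section

namespace Fermat.Agent.H95.Cft

open Fermat.Agent.H54.Cft
open Fermat.Agent.H76.Cft (QS ES IsPlaceOutside stdCochain sNorm IsUnitAt IsUnitOutside
  IsPowValOutside)
open Fermat.Agent.H48.N6K (zp dlog zp_dlog zp_injective zp_zero zp_add zp_sub d1 d1_mul galU_mul
  galU_zp pow_eq_one_of_primitive exists_root)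

section Cochain

variable {K : IntermediateField ℚ Qbar} {p : ℕ} [Fact p.Prime]

/-- The floor identity: `⌊(j+k)/p⌋ + ⌊(i + (j+k)%p)/p⌋ = ⌊((i+j)%p + k)/p⌋ + ⌊(i+j)/p⌋`. -/
theorem bs_floor (p i j k : ℕ) :
    (j + k) / p + (i + (j + k) % p) / p = ((i + j) % p + k) / p + (i + j) / p := by
  rcases Nat.eq_zero_or_pos p with hp | hp
  · subst hp
    simp
  have h1 : (i + j + k) / p = (i + (j + k) % p) / p + (j + k) / p := by
    have : i + j + k = i + (j + k) % p + p * ((j + k) / p) := by
      have := Nat.mod_add_div (j + k) p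
      omega
    rw [this, Nat.add_mul_div_left _ _ hp]
  have h2 : (i + j + k) / p = ((i + j) % p + k) / p + (i + j) / p := by
    have : i + j + k = (i + j) % p + k + p * ((i + j) / p) := by
      have := Nat.mod_add_div (i + j) p
      omega
    rw [this, Nat.add_mul_div_left _ _ hp]
  omega

/-- An element of `K` is fixed by `G_K`. -/
theorem bs_galU_fixed {u : Qbarˣ} (hu : (u : Qbar) ∈ K) (g : GalL K) :
    galU (g : GQ) u = u := by
  apply Units.ext
  rw [coe_galU]
  exact (IntermediateField.mem_fixingSubgroup_iff K (g : GQ)).mp g.2 _ hu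

/-- The standard cochain is a multiplicative `2`-cocycle. -/
theorem bs_std_cocycle (χ : GalL K → ZMod p) (hχ : ∀ g h, χ (g * h) = χ g + χ h)
    {u : Qbarˣ} (hu : (u : Qbar) ∈ K) (g h k : GalL K) :
    galU (g : GQ) (stdCochain χ u (h, k)) * stdCochain χ u (g, h * k) =
      stdCochain χ u (g * h, k) * stdCochain χ u (g, h) := by
  simp only [stdCochain, map_pow, bs_galU_fixed hu]
  rw [← pow_add, ← pow_add, hχ h k, hχ g h, ZMod.val_add, ZMod.val_add]
  congr 1
  exact bs_floor p _ _ _

theorem bs_grp1 {M : Type} [CommGroup M] (A B C D F G : M) :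
    A * B / C * (C * D / F) = A * G / F * (B * D / G) := by
  rw [div_mul_div_comm, div_mul_div_comm, div_eq_div_iff_mul_eq_mul]
  simp only [mul_comm, mul_left_comm]

/-- Coboundaries are cocycles. -/
theorem bs_d1_cocycle (b : GalL K → Qbarˣ) (g h k : GalL K) :
    galU (g : GQ) (d1 b h k) * d1 b g (h * k) = d1 b (g * h) k * d1 b g h := by
  have e1 : galU ((g * h : GalL K) : GQ) (b k) = galU (g : GQ) (galU (h : GQ) (b k)) := by
    rw [Subgroup.coe_mul, galU_mul]
  have e2 : b (g * h * k) = b (g * (h * k)) := by rw [mul_assoc]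
  simp only [d1, map_div, map_mul]
  rw [e1, e2]
  exact bs_grp1 _ _ _ _ _ _

/-- The coboundary of the correction cochain `g ↦ (u ^ (χ g · t))⁻¹`. -/
theorem bs_d1_corr (χ : GalL K → ZMod p) (hχ : ∀ g h, χ (g * h) = χ g + χ h)
    {u : Qbarˣ} (hu : (u : Qbar) ∈ K) (t : ℕ) (g h : GalL K) :
    d1 (fun g : GalL K => (u ^ ((χ g).val * t))⁻¹) g h =
      (u ^ (p * (((χ g).val + (χ h).val) / p) * t))⁻¹ := by
  simp only [d1, map_inv, map_pow, bs_galU_fixed hu]
  rw [hχ g h, ZMod.val_add]
  have h1 : (χ g).val + (χ h).val =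
      ((χ g).val + (χ h).val) % p + p * (((χ g).val + (χ h).val) / p) :=
    (Nat.mod_add_div _ _).symm
  set i := (χ g).val
  set j := (χ h).val
  set r := (i + j) % p
  set q := (i + j) / p
  have h2 : j * t + i * t = r * t + p * q * t := by
    have : (i + j) * t = (r + p * q) * t := by rw [← h1]
    ring_nf at this ⊢
    omega
  rw [div_eq_iff_eq_mul, ← mul_inv, ← mul_inv, inv_inj, ← pow_add, ← pow_add, h2, add_comm]

/-- Level invariance of the coboundary of a level `1`-cochain whose values are fixed. -/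
theorem bs_d1_lvl (b : GalL K → Qbarˣ) (N : Subgroup (GalL K)) (hNn : N.Normal)
    (h1 : ∀ g, ∀ n ∈ N, b (g * n) = b g)
    (h2 : ∀ g, ∀ n ∈ N, galU ((n : GalL K) : GQ) (b g) = b g)
    (g h n m : GalL K) (hn : n ∈ N) (hm : m ∈ N) :
    d1 b (g * n) (h * m) = d1 b g h := by
  simp only [d1]
  have e1 : g * n * (h * m) = g * h * (h⁻¹ * n * h * m) := by group
  have e2 : h⁻¹ * n * h * m ∈ N := by
    apply N.mul_mem _ hm
    have := hNn.conj_mem n hn h⁻¹
    simpa using this
  rw [e1, h1 (g * h) _ e2, h1 g n hn, h1 h m hm, Subgroup.coe_mul, galU_mul, h2 h n hn]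

/-- If `ζ ^ x` is a multiplicative `2`-cocycle then `x` is a `2`-cocycle. -/
theorem bs_isCocycle₂ {ζ : Qbarˣ} (hζ : IsPrimitiveRoot (ζ : Qbar) p) (hζK : (ζ : Qbar) ∈ K)
    (x : GalL K × GalL K → ZMod p)
    (hy : ∀ g h k : GalL K, galU (g : GQ) (zp ζ (x (h, k))) * zp ζ (x (g, h * k)) =
      zp ζ (x (g * h, k)) * zp ζ (x (g, h))) :
    IsCocycle₂ x := by
  haveI : NeZero p := ⟨(Fact.out : p.Prime).ne_zero⟩
  intro g h k
  apply zp_injective hζ
  have hζp : ζ ^ p = 1 := pow_eq_one_of_primitive hζ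
  rw [zp_zero, zp_sub hζp, zp_add hζp, zp_sub hζp]
  have := hy g h k
  rw [galU_zp hζK] at this
  rw [div_mul_eq_mul_div, this, mul_div_cancel_left, div_self']

end Cochain

end Fermat.Agent.H95.Cft
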