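/-
P-CFT / BRAUER-S block, row 940 BS-5 (helper95), part 3: the assembly
`brauerSLift_of : BsAlgStatement → NormEltStatement → BrauerSLiftStatement`.

In the situation of `NormEltStatement` with `ζ_p ∈ K`, the standard cochain of the cyclic algebra
`(χ, u)` is `ζ ^ x` times the coboundary of a level `1`-cochain `b`, for an `S`-level
`ℤ/p`-valued `2`-cocycle `x` of `G_K`.

Steps: the norm element `β` of `NormEltStatement` lies in `ℚ_S`, and so does a `p^a`-th root `α`
(`kummerRootQS`); the algebra core `BsAlgStatement` (for `G_K` acting on `ℚ̄ˣ`, `E = E_S`) gives a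
cochain `b₁` with `(std(χ, u ^ m) / d b₁) ^ p = 1`; as `m ≡ 1 mod p`, `std(χ, u ^ m)` and
`std(χ, u)` differ by an explicit coboundary; the discrete logarithm of `std(χ, u) / d b` is the
cocycle `x`.  Level: a finite field `F₂ ⊆ ℚ_S`, normal over `ℚ`, containing `α` and the (finitely
many) values of `b₁`.
-/
import Fermat.Agent.H95.Cft.BrauerSCochain

set_option autoImplicit false
set_option linter.style.haveILetI false
set_option linter.unusedSectionVars false

noncomputable section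

namespace Fermat.Agent.H95.Cft

open Fermat.Agent.H54.Cft
open Fermat.Agent.H76.Cft (QS ES IsPlaceOutside stdCochain sNorm IsUnitAt IsUnitOutside
  IsPowValOutside BsAlgStatement NormEltStatement BrauerSLiftStatement IsLvlAll₁)
open Fermat.Agent.H48.N6K (zp dlog zp_dlog zp_injective zp_zero zp_add zp_sub d1 d1_mul galU_mul
  galU_zp pow_eq_one_of_primitive exists_root)

section Aux

/-- The units of `ℚ̄` lying in `ℚ_S`. -/
def bsQSU (S : Finset Nat.Primes) : Subgroup Qbarˣ where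
  carrier := {x | (x : Qbar) ∈ QS S}
  one_mem' := by
    show ((1 : Qbarˣ) : Qbar) ∈ QS S
    rw [Units.val_one]
    exact (QS S).one_mem
  mul_mem' := by
    intro x y hx hy
    show ((x * y : Qbarˣ) : Qbar) ∈ QS S
    rw [Units.val_mul]
    exact (QS S).mul_mem hx hy
  inv_mem' := by
    intro x hx
    show ((x⁻¹ : Qbarˣ) : Qbar) ∈ QS S
    rw [Units.val_inv_eq_inv_val]
    exact (QS S).inv_mem hx

theorem mem_bsQSU {S : Finset Nat.Primes} {x : Qbarˣ} : x ∈ bsQSU S ↔ (x : Qbar) ∈ QS S :=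
  Iff.rfl

theorem es_le_bsQSU (S : Finset Nat.Primes) : ES S ≤ bsQSU S := fun _ hx => hx.1

/-- A function right-invariant under a subgroup of finite index has finite range. -/
theorem bs_finite_range {G M : Type} [Group G] (N : Subgroup G) [N.FiniteIndex] (c : G → M)
    (hinv : ∀ g, ∀ n ∈ N, c (g * n) = c g) : (Set.range c).Finite := by
  have h := Fermat.Agent.H75.Inf2.finite_range_of_invariant N (fun q : G × G => c q.1)
    (fun g _ n hn _ _ => hinv g n hn)
  refine h.subset ?_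
  rintro _ ⟨g, rfl⟩
  exact ⟨(g, 1), rfl⟩

/-- Elements of the fixing subgroup of a field with normal fixing subgroup fix the conjugates of
its elements. -/
theorem bs_fixed_conj {F : IntermediateField ℚ Qbar} (hF : F.fixingSubgroup.Normal) {n : GQ}
    (hn : n ∈ F.fixingSubgroup) (σ : GQ) {x : Qbar} (hx : x ∈ F) : n (σ x) = σ x := by
  have h1 : σ⁻¹ * n * σ⁻¹⁻¹ ∈ F.fixingSubgroup := hF.conj_mem n hn σ⁻¹
  rw [inv_inv] at h1
  have h2 : (σ⁻¹ * n * σ) x = x := (IntermediateField.mem_fixingSubgroup_iff F _).mp h1 x hx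
  have h3 : σ ((σ⁻¹ * n * σ) x) = σ x := by rw [h2]
  have h4 : σ ((σ⁻¹ * n * σ) x) = n (σ x) := by
    show (σ * (σ⁻¹ * n * σ)) x = n (σ x)
    rw [← mul_assoc, ← mul_assoc, mul_inv_cancel, one_mul]
    rfl
  rw [← h4, h3]

variable {K : IntermediateField ℚ Qbar} {p : ℕ}

theorem bs_char_one (χ : GalL K → ZMod p) (hχ : ∀ g h, χ (g * h) = χ g + χ h) : χ 1 = 0 := by
  have := hχ 1 1
  rw [one_mul] at this
  exact left_eq_add.mp this

theorem bs_char_inv (χ : GalL K → ZMod p) (hχ : ∀ g h, χ (g * h) = χ g + χ h) (g : GalL K) :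
    χ g⁻¹ = -χ g := by
  have := hχ g⁻¹ g
  rw [inv_mul_cancel, bs_char_one χ hχ] at this
  exact eq_neg_of_add_eq_zero_left this.symm

/-- The level subgroup: the elements of `G_K` killed by `χ` and fixing `F`. -/
def bsLevel (χ : GalL K → ZMod p) (hχ : ∀ g h, χ (g * h) = χ g + χ h)
    (F : IntermediateField ℚ Qbar) : Subgroup (GalL K) where
  carrier := {n | χ n = 0 ∧ (n : GQ) ∈ F.fixingSubgroup}
  one_mem' := ⟨bs_char_one χ hχ, F.fixingSubgroup.one_mem⟩
  mul_mem' := by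
    intro x y hx hy
    refine ⟨?_, ?_⟩
    · show χ (x * y) = 0
      rw [hχ, hx.1, hy.1, add_zero]
    · show ((x * y : GalL K) : GQ) ∈ F.fixingSubgroup
      rw [Subgroup.coe_mul]
      exact F.fixingSubgroup.mul_mem hx.2 hy.2
  inv_mem' := by
    intro x hx
    refine ⟨?_, ?_⟩
    · show χ x⁻¹ = 0
      rw [bs_char_inv χ hχ, hx.1, neg_zero]
    · show ((x⁻¹ : GalL K) : GQ) ∈ F.fixingSubgroup
      rw [Subgroup.coe_inv]
      exact F.fixingSubgroup.inv_mem hx.2

theorem mem_bsLevel {χ : GalL K → ZMod p} {hχ : ∀ g h, χ (g * h) = χ g + χ h}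
    {F : IntermediateField ℚ Qbar} {n : GalL K} :
    n ∈ bsLevel χ hχ F ↔ χ n = 0 ∧ (n : GQ) ∈ F.fixingSubgroup := Iff.rfl

theorem bsLevel_normal (χ : GalL K → ZMod p) (hχ : ∀ g h, χ (g * h) = χ g + χ h)
    {F : IntermediateField ℚ Qbar} (hF : F.fixingSubgroup.Normal) :
    (bsLevel χ hχ F).Normal := by
  refine ⟨fun n hn g => ?_⟩
  rw [mem_bsLevel] at hn ⊢
  refine ⟨?_, ?_⟩
  · rw [hχ, hχ, hn.1, add_zero, bs_char_inv χ hχ, add_neg_cancel]
  · rw [Subgroup.coe_mul, Subgroup.coe_mul, Subgroup.coe_inv]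
    exact hF.conj_mem _ hn.2 _

end Aux

section Main

/-- **[B5] (Brauer-S lift)**, from the algebra core and the norm elements. -/
theorem brauerSLift_of (halg : BsAlgStatement) (hnorm : NormEltStatement) :
    BrauerSLiftStatement := by
  intro p _ _ S hpS K hK ζ hζ hζK χ hχ s hs hχs u hu hloc
  classical
  have hp : p.Prime := Fact.out
  haveI : NeZero p := ⟨hp.ne_zero⟩
  -- Step 1: the norm element
  obtain ⟨a, m, β, hm, hβfix, hβpow, hβunit⟩ := hnorm p S hpS K hK χ hχ s hs hχs u hu hloc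
  obtain ⟨hχadd, F, hF, hχF⟩ := hχ
  have hβQ : (β : Qbar) ∈ QS S := by
    have hFK : (F ⊔ K).IsUnramifiedOutside S := hF.sup hK
    apply bs_le_QS hFK
    apply Fermat.Agent.H87.Cft.mem_of_forall_fixed
    rintro ⟨σ, hσ⟩
    rw [IntermediateField.fixingSubgroup_sup] at hσ
    have := hβfix σ hσ.2 (hχF σ hσ.1 hσ.2)
    exact congrArg (fun v : Qbarˣ => (v : Qbar)) this
  -- Step 2: a `p ^ a`-th root
  have hpa : 0 < p ^ a := pow_pos hp.pos a
  obtain ⟨α, hα⟩ := exists_root (p ^ a) hpa β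
  have hαQ : (α : Qbar) ∈ QS S :=
    Fermat.Agent.H88.Cft.kummerRootQS p S hpS a β α hα hβQ hβpow
  -- Step 3: the algebra core
  let act : GalL K → Qbarˣ →* Qbarˣ := fun g => galU (g : GQ)
  have hact1 : ∀ v, act 1 v = v := fun v => Units.ext rfl
  have hactmul : ∀ g h v, act (g * h) v = act g (act h v) := fun g h v => by
    show galU ((g * h : GalL K) : GQ) v = galU (g : GQ) (galU (h : GQ) v)
    rw [Subgroup.coe_mul, galU_mul]
  have hEstab : ∀ g, ∀ v ∈ ES S, act g v ∈ ES S := fun g v hv =>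
    Fermat.Agent.H96.Cft.esStable S (g : GQ) v hv
  have hEdiv : ∀ v ∈ ES S, ∃ y ∈ ES S, y ^ p = v := fun v hv => by
    obtain ⟨y, hy⟩ := exists_root p hp.pos v
    exact ⟨y, Fermat.Agent.H96.Cft.kummerDivisible p S hpS v y hy hv, hy⟩
  let χ' : GalL K → ZMod p := fun g => χ (g : GQ)
  have hχ'add : ∀ g h, χ' (g * h) = χ' g + χ' h := fun g h => hχadd g g.2 h h.2
  let s' : GalL K := ⟨s, hs⟩
  have hχ's : χ' s' = 1 := hχs
  have hufix : ∀ g : GalL K, act g (u ^ m) = u ^ m := fun g => by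
    show galU (g : GQ) (u ^ m) = u ^ m
    rw [map_pow, bs_galU_fixed hu g]
  have hQSstab : ∀ g : GalL K, ∀ v ∈ bsQSU S, act g v ∈ bsQSU S := fun g v hv =>
    Fermat.Agent.H96.Cft.apply_mem_QS S (g : GQ) hv
  have hαU : α ∈ bsQSU S := hαQ
  have h1 : ∀ n : GalL K, χ' n = 0 → act n α / α ∈ ES S := by
    intro n hn
    have hw : (act n α / α) ^ (p ^ a) = 1 := by
      rw [div_pow, ← map_pow, hα]
      show galU (n : GQ) β / β = 1
      rw [hβfix (n : GQ) n.2 hn, div_self']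
    have hwQ : act n α / α ∈ bsQSU S := (bsQSU S).div_mem (hQSstab n α hαU) hαU
    refine ⟨hwQ, fun A _ => ⟨?_, ?_⟩⟩
    · apply Fermat.Agent.H96.Cft.mem_of_pow_mem A hpa.ne'
      rw [← Units.val_pow_eq_pow_val, hw, Units.val_one]
      exact A.one_mem
    · apply Fermat.Agent.H96.Cft.mem_of_pow_mem A hpa.ne'
      rw [← Units.val_pow_eq_pow_val, inv_pow, hw, inv_one, Units.val_one]
      exact A.one_mem
  have hsk : ∀ k : ℕ, act (s' ^ k) = galU (s ^ k) := fun k => by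
    show galU ((s' ^ k : GalL K) : GQ) = galU (s ^ k)
    rw [Subgroup.coe_pow]
  have h2 : u ^ m / (∏ k ∈ Finset.range p, act (s' ^ k) α) ∈ ES S := by
    have hy0pow : (u ^ m / (∏ k ∈ Finset.range p, act (s' ^ k) α)) ^ (p ^ a) =
        u ^ (m * p ^ a) / sNorm p s β := by
      rw [div_pow, ← pow_mul, ← Finset.prod_pow]
      congr 1
      unfold sNorm
      refine Finset.prod_congr rfl fun k _ => ?_
      rw [← map_pow, hα, hsk]
    have huU : u ∈ bsQSU S := bs_le_QS hK hu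
    have hy0Q : u ^ m / (∏ k ∈ Finset.range p, act (s' ^ k) α) ∈ bsQSU S :=
      (bsQSU S).div_mem ((bsQSU S).pow_mem huU m)
        ((bsQSU S).prod_mem fun k _ => hQSstab (s' ^ k) α hαU)
    refine ⟨hy0Q, fun A hA => ⟨?_, ?_⟩⟩
    · apply Fermat.Agent.H96.Cft.mem_of_pow_mem A hpa.ne'
      rw [← Units.val_pow_eq_pow_val, hy0pow]
      exact (hβunit A hA).1
    · apply Fermat.Agent.H96.Cft.mem_of_pow_mem A hpa.ne'
      rw [← Units.val_pow_eq_pow_val, inv_pow, hy0pow]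
      exact (hβunit A hA).2
  obtain ⟨b1, hb1inv, hb1val, hb1pow⟩ := halg (GalL K) Qbarˣ act hact1 hactmul (ES S) hEstab p
    hEdiv χ' hχ'add s' hχ's (u ^ m) α hufix h1 h2
  have hb1Q : ∀ g, b1 g ∈ bsQSU S := hb1val (bsQSU S) (es_le_bsQSU S) hαU hQSstab
  -- the values of `b1` are finite in number
  obtain ⟨F1, hF1, hαF1, hF1n⟩ := bs_exists_stable_field (S := S) {(α : Qbar)}
    (Set.finite_singleton _) (fun t ht => by rw [Set.mem_singleton_iff.mp ht]; exact hαQ)
  have hconj : ∀ (F' : IntermediateField ℚ Qbar), F'.fixingSubgroup.Normal → (α : Qbar) ∈ F' →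
      ∀ n : GalL K, (n : GQ) ∈ F'.fixingSubgroup →
      ∀ k : ℕ, act n (act (s' ^ k) α) = act (s' ^ k) α := by
    intro F' hF'n hαF' n hn k
    apply Units.ext
    show (n : GQ) (((s' ^ k : GalL K) : GQ) (α : Qbar)) = ((s' ^ k : GalL K) : GQ) (α : Qbar)
    exact bs_fixed_conj hF'n hn _ hαF'
  have hb1fin : (Set.range b1).Finite := by
    haveI : FiniteDimensional ℚ (F ⊔ F1 : IntermediateField ℚ Qbar) := (hF.sup hF1).1
    haveI := Fermat.Agent.H57.CFT.finiteIndex_fixingSubgroup_qb (F ⊔ F1)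
    let N0 : Subgroup (GalL K) := (F ⊔ F1).fixingSubgroup.subgroupOf K.fixingSubgroup
    haveI : N0.FiniteIndex := inferInstance
    have hN0 : ∀ n ∈ N0, (n : GQ) ∈ F.fixingSubgroup ∧ (n : GQ) ∈ F1.fixingSubgroup := by
      intro n hn
      have hn' : (n : GQ) ∈ (F ⊔ F1).fixingSubgroup := hn
      rw [IntermediateField.fixingSubgroup_sup] at hn'
      exact hn'
    refine bs_finite_range N0 b1 (hb1inv N0 ?_ ?_)
    · intro n hn
      exact hχF (n : GQ) (hN0 n hn).1 n.2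
    · intro n hn k
      exact hconj F1 hF1n (hαF1 _ rfl) n (hN0 n hn).2 k
  -- the level field
  let T0 : Set Qbar := insert (α : Qbar) ((fun v : Qbarˣ => (v : Qbar)) '' Set.range b1)
  have hT0fin : T0.Finite := (hb1fin.image _).insert _
  have hT0Q : ∀ t ∈ T0, t ∈ QS S := by
    rintro t (rfl | ⟨v, ⟨g, rfl⟩, rfl⟩)
    · exact hαQ
    · exact hb1Q g
  obtain ⟨F2, hF2, hT0F2, hF2n⟩ := bs_exists_stable_field (S := S) T0 hT0fin hT0Q
  have hαF2 : (α : Qbar) ∈ F2 := hT0F2 _ (Set.mem_insert _ _)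
  have hb1F2 : ∀ g, ((b1 g : Qbarˣ) : Qbar) ∈ F2 := fun g =>
    hT0F2 _ (Set.mem_insert_of_mem _ ⟨b1 g, ⟨g, rfl⟩, rfl⟩)
  let N : Subgroup (GalL K) := bsLevel χ' hχ'add F2
  have hNn : N.Normal := bsLevel_normal χ' hχ'add hF2n
  have hNmem : ∀ n : GalL K, (n : GQ) ∈ (F2 ⊔ F).fixingSubgroup → n ∈ N := by
    intro n hn
    rw [IntermediateField.fixingSubgroup_sup] at hn
    exact ⟨hχF (n : GQ) hn.2 n.2, hn.1⟩
  -- Step 4: from `u ^ m` to `u`
  obtain ⟨t, ht⟩ : ∃ t, m = p * t + 1 := ⟨m / p, by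
    have := Nat.div_add_mod m p
    omega⟩
  let c : GalL K → Qbarˣ := fun g => (u ^ ((χ' g).val * t))⁻¹
  let b : GalL K → Qbarˣ := b1 * c
  have hbinv : ∀ g, ∀ n ∈ N, b (g * n) = b g := by
    intro g n hn
    have e1 : b1 (g * n) = b1 g :=
      hb1inv N (fun n hn => hn.1) (fun n hn k => hconj F2 hF2n hαF2 n hn.2 k) g n hn
    have e2 : χ' (g * n) = χ' g := by rw [hχ'add, hn.1, add_zero]
    show b1 (g * n) * (u ^ ((χ' (g * n)).val * t))⁻¹ = b1 g * (u ^ ((χ' g).val * t))⁻¹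
    rw [e1, e2]
  have hbfix : ∀ g, ∀ n ∈ N, galU ((n : GalL K) : GQ) (b g) = b g := by
    intro g n hn
    show galU (n : GQ) (b1 g * (u ^ ((χ' g).val * t))⁻¹) = b1 g * (u ^ ((χ' g).val * t))⁻¹
    rw [map_mul, map_inv, map_pow, bs_galU_fixed hu n]
    congr 1
    apply Units.ext
    rw [coe_galU]
    exact (IntermediateField.mem_fixingSubgroup_iff F2 _).mp hn.2 _ (hb1F2 g)
  have hy : ∀ g h, stdCochain χ' u (g, h) / d1 b g h =
      (u ^ m) ^ (((χ' g).val + (χ' h).val) / p) / d1 b1 g h := by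
    intro g h
    have hd : d1 b g h = d1 b1 g h * (u ^ (p * (((χ' g).val + (χ' h).val) / p) * t))⁻¹ := by
      rw [show b = b1 * c from rfl, d1_mul, bs_d1_corr χ' hχ'add hu t g h]
    rw [hd]
    simp only [stdCochain]
    rw [← div_div, div_inv_eq_mul, div_mul_eq_mul_div, ← pow_add, ← pow_mul, ht]
    congr 2
    ring
  have hyp : ∀ g h, (stdCochain χ' u (g, h) / d1 b g h) ^ p = 1 := fun g h => by
    rw [hy]
    exact hb1pow g h
  -- Step 5: the discrete logarithm
  let x : GalL K × GalL K → ZMod p := fun gh => dlog ζ (stdCochain χ' u gh / d1 b gh.1 gh.2)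
  have hx : ∀ g h, zp ζ (x (g, h)) = stdCochain χ' u (g, h) / d1 b g h := fun g h =>
    zp_dlog hζ _ (hyp g h)
  refine ⟨x, b, ?_, ?_, ?_, ?_⟩
  · -- Step 6: the cocycle identity
    apply bs_isCocycle₂ hζ hζK
    intro g h k
    rw [hx, hx, hx, hx, map_div, div_mul_div_comm, div_mul_div_comm,
      bs_std_cocycle χ' hχ'add hu, bs_d1_cocycle]
  · -- Step 7: the level of `x`
    refine ⟨F2 ⊔ F, hF2.sup hF, fun g h n m' hn hm => ?_⟩
    have hnN : n ∈ N := hNmem n hn
    have hmN : m' ∈ N := hNmem m' hm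
    show dlog ζ (stdCochain χ' u (g * n, h * m') / d1 b (g * n) (h * m')) =
      dlog ζ (stdCochain χ' u (g, h) / d1 b g h)
    rw [bs_d1_lvl b N hNn hbinv hbfix g h n m' hnN hmN]
    congr 2
    simp only [stdCochain]
    rw [hχ'add g n, hχ'add h m', hnN.1, hmN.1, add_zero, add_zero]
  · -- Step 8: the level of `b`
    exact ⟨F2 ⊔ F, (hF2.sup hF).1, fun g n hn => hbinv g n (hNmem n hn)⟩
  · intro g h
    exact hx g h

end Main

end Fermat.Agent.H95.Cft
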