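import Fermat.Agent.H95.Cft.LocalOnto

/-!
# P-CFT : `LocalOnto` from the `H¹` surjectivity alone (helper95)

`localOnto_of_E1` is `Fermat.Agent.H95.Cft.localOntoOfBase` with the hypothesis `LocalBase`
(whose `H⁰` component cannot hold, see helper85's report) replaced by the only statement which the
proof consumes: `H¹(lthetaHom Tv N)` is an epimorphism for every good local module `N`.
No dévissage (`localMain`) is used here.
-/

set_option autoImplicit false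

universe u

open CategoryTheory groupCohomology

namespace Fermat.Agent.H95.Cft

open Fermat.Agent.H13.Cft Fermat.Agent.H19

noncomputable section

section MainE1

/-- **[L-ONTO], E1 form.**  `LocalOnto` from the surjectivity of `H¹(λ_N)` on good local modules
(the only part of the local duality statement that is consumed): the hypothesis
`LocalBase` of `Fermat.Agent.H13.Cft.LocalOntoOfBaseStatement` is replaced by
"`H¹(lthetaHom Tv N)` is an epimorphism for every good `N`". -/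
theorem localOnto_of_E1 {p : ℕ} [Fact p.Prime] {G : Type} [Group G] (𝔄 : ArithDatum (ZMod p) G)
    (T : Trace 𝔄)
    (hloc : ∀ v : 𝔄.ι, ∃ (Tv : LTrace (𝔄.lvlv v) (𝔄.χ.comp (𝔄.loc v)))
        (hc : ∀ M : Rep (ZMod p) (𝔄.Γ v), LThetaComm Tv M),
        (∀ c : (Fin 2 → 𝔄.Γ v) → ZMod p,
          ∀ (h1 : c ∈ lvlCochains (𝔄.lvlv v) (muRep (𝔄.χ.comp (𝔄.loc v))) 2)
            (h2 : c ∈ lvlCochains (𝔄.lvlv v) (Rep.res (𝔄.loc v) (muRep 𝔄.χ)) 2),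
            Tv.t ⟨c, h1⟩ = T.localAt v ⟨c, h2⟩) ∧
        ∀ N : Rep (ZMod p) (𝔄.Γ v), IsLGood (𝔄.lvlv v) N →
          Epi (HomologicalComplex.homologyMap (lthetaHom Tv N (hc N)) 1))
    (M : Rep (ZMod p) G) (hM : IsGood 𝔄 M) : LocalOnto 𝔄 T M := by
  intro v ψ
  obtain ⟨Tv, hc, hagree, hE1⟩ := hloc v
  -- the restricted module is good, the restricted character is a level character
  have hNgood : IsLGood (𝔄.lvlv v) (Rep.res (𝔄.loc v) M) := by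
    obtain ⟨hfin, N₀, hN₀, htriv⟩ := hM
    obtain ⟨N', hN', hle⟩ := 𝔄.compat v N₀ hN₀
    exact ⟨hfin, N', hN', fun s hs => htriv _ (hle hs)⟩
  have hsurj : Function.Surjective
      (HomologicalComplex.homologyMap (lthetaHom Tv (Rep.res (𝔄.loc v) M)
        (hc (Rep.res (𝔄.loc v) M))) 1).hom := by
    have := hE1 (Rep.res (𝔄.loc v) M) hNgood
    exact (ModuleCat.epi_iff_surjective _).1 inferInstance
  -- the two complexes of dual coefficients and the comparison maps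
  let conv : lvlComplex (𝔄.lvlv v) ((Rep.res (𝔄.loc v) M).dualTwist (𝔄.χ.comp (𝔄.loc v))) ⟶
      lvlComplex (𝔄.lvlv v) (Rep.res (𝔄.loc v) (M.dualTwist 𝔄.χ)) :=
    lvlMap (𝔄.lvlv v) (twistResInv (𝔄.loc v) 𝔄.χ M)
  let conv' : lvlComplex (𝔄.lvlv v) (Rep.res (𝔄.loc v) (M.dualTwist 𝔄.χ)) ⟶
      lvlComplex (𝔄.lvlv v) ((Rep.res (𝔄.loc v) M).dualTwist (𝔄.χ.comp (𝔄.loc v))) :=
    lvlMap (𝔄.lvlv v) (twistResHom (𝔄.loc v) 𝔄.χ M)
  let K₂ := lvlComplex (𝔄.lvlv v) ((Rep.res (𝔄.loc v) M).dualTwist (𝔄.χ.comp (𝔄.loc v)))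
  let ψ₂ : LinearMap.ker (K₂.d 1 2).hom →ₗ[ZMod p] ZMod p :=
    ψ ∘ₗ (HomologicalComplex.homologyMap conv 1).hom ∘ₗ cocyclesToH K₂ 1
  have hψ₂ : ∀ (z : K₂.X 0) (hz : (K₂.d 0 1).hom z ∈ LinearMap.ker (K₂.d 1 2).hom),
      ψ₂ ⟨(K₂.d 0 1).hom z, hz⟩ = 0 := by
    intro z hz
    have h0 : cocyclesToH K₂ 1 ⟨(K₂.d 0 1).hom z, hz⟩ = 0 :=
      (cocyclesToH_succ_eq_zero_iff K₂ 0 _).2 ⟨z, rfl⟩
    show ψ ((HomologicalComplex.homologyMap conv 1).hom (cocyclesToH K₂ 1 _)) = 0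
    rw [h0, map_zero, map_zero]
  obtain ⟨ξ, hξ1, hξ2⟩ := exists_dual_cocycle K₂ ψ₂ hψ₂
  obtain ⟨a, ha, haξ⟩ := exists_cocycle_of_surjective K₂
    (lthetaHom Tv (Rep.res (𝔄.loc v) M) (hc (Rep.res (𝔄.loc v) M))) hsurj ξ hξ2
  have ha' : lvlD (𝔄.lvlv v) (Rep.res (𝔄.loc v) M) 1 a = 0 :=
    (lvlComplex_d_hom_apply (𝔄.lvlv v) (Rep.res (𝔄.loc v) M) 1 a).symm.trans ha
  refine ⟨-a, by rw [map_neg, ha', neg_zero], fun y hy => ?_⟩
  -- transport `y` to the other complex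
  have hy1 : ((lvlComplex (𝔄.lvlv v) (Rep.res (𝔄.loc v) (M.dualTwist 𝔄.χ))).d 1 2).hom y = 0 :=
    (lvlComplex_d_hom_apply _ _ 1 y).trans hy
  have hy2 : (K₂.d 1 2).hom ((conv'.f 1).hom y) = 0 := hapi_map_mem_ker _ 1 conv' y hy1
  have e1 : ψ (lvlHMk (𝔄.lvlv v) (Rep.res (𝔄.loc v) (M.dualTwist 𝔄.χ)) 1 y hy)
      = ξ ((conv'.f 1).hom y) := by
    have h1 := hξ1 ⟨(conv'.f 1).hom y, LinearMap.mem_ker.2 hy2⟩
    rw [h1]
    show _ = ψ ((HomologicalComplex.homologyMap conv 1).hom (cocyclesToH K₂ 1 _))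
    rw [cocyclesToH_mk K₂ 1 _ hy2, hapi_homologyMap_hMk' K₂ 1 _ conv _ hy2]
    congr 1
  have e2 : ξ ((conv'.f 1).hom y)
      = - Tv.t (cupLvl (𝔄.lvlv v) (evPairing (𝔄.χ.comp (𝔄.loc v)) (Rep.res (𝔄.loc v) M)) 1 1 a
          ((conv'.f 1).hom y)) :=
    (haξ _ hy2).symm
  have hraw : (cupLvl (𝔄.lvlv v) (evPairing (𝔄.χ.comp (𝔄.loc v)) (Rep.res (𝔄.loc v) M)) 1 1 a
        ((conv'.f 1).hom y)).1
      = (cupLvl (𝔄.lvlv v) ((evPairing 𝔄.χ M).res (𝔄.loc v)) 1 1 a y).1 := by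
    funext g
    rw [cupLvl_apply, cupLvl_apply]
    exact congrArg (fun f : Module.Dual (ZMod p) M => f (a.1 fun t => g (Fin.castAdd 1 t)))
      (dualTwist_res_ρ (𝔄.loc v) 𝔄.χ M _ _).symm
  have e3 : Tv.t (cupLvl (𝔄.lvlv v) (evPairing (𝔄.χ.comp (𝔄.loc v)) (Rep.res (𝔄.loc v) M)) 1 1 a
        ((conv'.f 1).hom y))
      = T.localAt v (cupLvl (𝔄.lvlv v) ((evPairing 𝔄.χ M).res (𝔄.loc v)) 1 1 a y) := by
    have h := hagree (cupLvl (𝔄.lvlv v) ((evPairing 𝔄.χ M).res (𝔄.loc v)) 1 1 a y).1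
      (by rw [← hraw]; exact Subtype.mem _)
      (Subtype.mem _)
    rw [← h]
    congr 1
    exact Subtype.ext hraw
  rw [e1, e2, e3, map_neg, LinearMap.neg_apply, ← localAt_apply, map_neg]

end MainE1

end

end Fermat.Agent.H95.Cft
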